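/-
S25 / AB-ALG leaf AA6 (helper807), part 1: ideal arithmetic in a Dedekind domain acting on an
invertible module.  Mathlib only.

* `exists_mul_eq_span`          : a nonzero ideal of a Dedekind domain divides a nonzero principal
                                  ideal;
* `exists_smul_eq_of_range_le`  : (division trick) a linear map `μ : J → N` with values in `J • N`
                                  is multiplication by an element of `N`;
* `exists_ideal_smul_top_eq`    : every submodule of an invertible module is `J • ⊤`;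
* `ideal_eq_of_smul_top_eq`     : `J • ⊤ = J' • ⊤ → J = J'`;
* `finrank_quotient_smul_top`   : `dim_K N / J N = dim_K R / J` (`R / J` finite-dimensional);
* `range_smulHom`               : the image of `N → Hom(J, N)` is `J • Hom(J, N)`.
-/
import Mathlib

set_option autoImplicit false
set_option maxHeartbeats 400000
set_option linter.style.haveILetI false

universe u

namespace Fermat.Agent.S25.H807.AA6

open Module

section Division

variable {R : Type*} [CommRing R] [IsDedekindDomain R]

/-- A nonzero ideal of a Dedekind domain divides a nonzero principal ideal. -/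
theorem exists_mul_eq_span {J : Ideal R} (hJ : J ≠ ⊥) :
    ∃ (J' : Ideal R) (a : R), a ≠ 0 ∧ a ∈ J ∧ J * J' = Ideal.span {a} := by
  obtain ⟨a, haJ, ha0⟩ := Submodule.exists_mem_ne_zero_of_ne_bot hJ
  have hle : Ideal.span {a} ≤ J := (Ideal.span_singleton_le_iff_mem J).mpr haJ
  obtain ⟨J', hJ'⟩ := Ideal.dvd_iff_le.mpr hle
  exact ⟨J', a, ha0, haJ, hJ'.symm⟩

end Division

section Trick

variable {R : Type*} [CommRing R] [IsDomain R]
variable {N : Type*} [AddCommGroup N] [Module R N] [Module.IsTorsionFree R N]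

/-- Elements of `(a) • ⊤` are multiples of `a`. -/
theorem exists_smul_eq_of_mem_span_smul {a : R} {m : N}
    (hm : m ∈ (Ideal.span {a} : Ideal R) • (⊤ : Submodule R N)) : ∃ n : N, m = a • n := by
  refine Submodule.smul_induction_on hm (fun r hr n _ => ?_) (fun x y hx hy => ?_)
  · obtain ⟨c, rfl⟩ := Ideal.mem_span_singleton'.mp hr
    exact ⟨c • n, by rw [smul_smul, mul_comm]⟩
  · obtain ⟨n₁, rfl⟩ := hx
    obtain ⟨n₂, rfl⟩ := hy
    exact ⟨n₁ + n₂, by rw [smul_add]⟩

/-- **Division trick.**  Let `J * J' = (a)` with `a ≠ 0` in a domain and let `N` be torsion-free.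
A linear map `μ : J → N` with values in `J • N` is multiplication by an element of `N`. -/
theorem exists_smul_eq_of_range_le {J J' : Ideal R} {a : R} (ha : a ≠ 0)
    (hJJ' : J * J' = Ideal.span {a}) (μ : J →ₗ[R] N)
    (hμ : ∀ r : J, μ r ∈ J • (⊤ : Submodule R N)) :
    ∃ n : N, ∀ r : J, μ r = (r : R) • n := by
  classical
  have haJJ' : a ∈ J * J' := by rw [hJJ']; exact Ideal.subset_span rfl
  have key : ∀ b ∈ J * J', ∃ m : N, m ∈ (J * J') • (⊤ : Submodule R N) ∧
      ∀ r : J, b • μ r = (r : R) • m := by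
    intro b hb
    refine Submodule.mul_induction_on hb (fun r hr r' hr' => ?_) (fun x y hx hy => ?_)
    · refine ⟨r' • μ ⟨r, hr⟩, ?_, fun s => ?_⟩
      · have h1 : μ ⟨r, hr⟩ ∈ J • (⊤ : Submodule R N) := hμ ⟨r, hr⟩
        have h2 : r' • μ ⟨r, hr⟩ ∈ J' • (J • (⊤ : Submodule R N)) :=
          Submodule.smul_mem_smul hr' h1
        rwa [← Submodule.smul_assoc, Ideal.smul_eq_mul, mul_comm J' J] at h2
      · have e1 : (r * r') • μ s = r' • (r • μ s) := by rw [smul_smul, mul_comm]
        have e2 : r • μ s = (s : R) • μ ⟨r, hr⟩ := by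
          have h1 : r • μ s = μ (r • s) := (map_smul μ r s).symm
          have h2 : (s : R) • μ ⟨r, hr⟩ = μ ((s : R) • (⟨r, hr⟩ : J)) :=
            (map_smul μ (s : R) ⟨r, hr⟩).symm
          rw [h1, h2]
          congr 1
          ext
          simp [mul_comm]
        rw [e1, e2, smul_smul, smul_smul, mul_comm]
    · obtain ⟨m₁, hm₁, h₁⟩ := hx
      obtain ⟨m₂, hm₂, h₂⟩ := hy
      exact ⟨m₁ + m₂, add_mem hm₁ hm₂, fun r => by rw [add_smul, h₁, h₂, smul_add]⟩
  obtain ⟨m, hm, hmr⟩ := key a haJJ'
  rw [hJJ'] at hm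
  obtain ⟨n, rfl⟩ := exists_smul_eq_of_mem_span_smul hm
  refine ⟨n, fun r => ?_⟩
  have h := hmr r
  rw [smul_smul, mul_comm, ← smul_smul] at h
  exact smul_right_injective N ha h

/-- For `J * J' = (a)`, `a ≠ 0` and `r' ∈ J'`: the linear form `s ↦ s r' / a` on `J`. -/
theorem exists_divMap {J J' : Ideal R} {a : R} (ha : a ≠ 0)
    (hJJ' : J * J' = Ideal.span {a}) {r' : R} (hr' : r' ∈ J') :
    ∃ δ : J →ₗ[R] R, ∀ s : J, a * δ s = (s : R) * r' := by
  classical
  have h : ∀ s : J, ∃ c : R, a * c = (s : R) * r' := by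
    intro s
    have h1 : (s : R) * r' ∈ Ideal.span {a} := by
      rw [← hJJ']; exact Ideal.mul_mem_mul s.2 hr'
    obtain ⟨c, hc⟩ := Ideal.mem_span_singleton'.mp h1
    exact ⟨c, by rw [mul_comm, hc]⟩
  choose c hc using h
  refine ⟨{ toFun := c, map_add' := fun s t => ?_, map_smul' := fun r s => ?_ }, hc⟩
  · apply mul_left_cancel₀ ha
    rw [hc, mul_add, hc, hc]
    simp [add_mul]
  · apply mul_left_cancel₀ ha
    rw [hc, RingHom.id_apply, smul_eq_mul, mul_left_comm, hc]
    simp [mul_assoc]

end Trick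

section SmulHom

variable {R : Type*} [CommRing R]
variable (J : Ideal R) (N : Type*) [AddCommGroup N] [Module R N]

/-- The map `n ↦ (r ↦ r • n)`, `N → Hom(J, N)`. -/
noncomputable def smulHom : N →ₗ[R] (J →ₗ[R] N) :=
  ((LinearMap.lsmul R N).comp J.subtype).flip

@[simp] theorem smulHom_apply (n : N) (r : J) : smulHom J N n r = (r : R) • n := rfl

variable {J N}

theorem smul_eq_smulHom (μ : J →ₗ[R] N) {r : R} (hr : r ∈ J) :
    r • μ = smulHom J N (μ ⟨r, hr⟩) := by
  ext s
  rw [LinearMap.smul_apply, smulHom_apply]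
  have h1 : r • μ s = μ (r • s) := (map_smul μ r s).symm
  have h2 : (s : R) • μ ⟨r, hr⟩ = μ ((s : R) • (⟨r, hr⟩ : J)) :=
    (map_smul μ (s : R) ⟨r, hr⟩).symm
  rw [h1, h2]
  congr 1
  ext
  simp [mul_comm]

theorem smulHom_injective [IsDomain R] [Module.IsTorsionFree R N] (hJ : J ≠ ⊥) :
    Function.Injective (smulHom J N) := by
  rw [← LinearMap.ker_eq_bot, LinearMap.ker_eq_bot']
  intro n hn
  obtain ⟨a, haJ, ha0⟩ := Submodule.exists_mem_ne_zero_of_ne_bot hJ
  have h1 : smulHom J N n ⟨a, haJ⟩ = 0 := by rw [hn]; rfl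
  rw [smulHom_apply] at h1
  exact (smul_eq_zero_iff_right ha0).mp h1

/-- The image of `N → Hom(J, N)` is `J • Hom(J, N)` (Dedekind domain, `J ≠ 0`). -/
theorem range_smulHom [IsDedekindDomain R] [Module.IsTorsionFree R N] (hJ : J ≠ ⊥) :
    LinearMap.range (smulHom J N) = J • (⊤ : Submodule R (J →ₗ[R] N)) := by
  classical
  apply le_antisymm
  · rintro _ ⟨n, rfl⟩
    obtain ⟨J', a, ha, -, hJJ'⟩ := exists_mul_eq_span hJ
    have haJJ' : a ∈ J * J' := by rw [hJJ']; exact Ideal.subset_span rfl
    have key : ∀ b ∈ J * J', ∃ μ : J →ₗ[R] N, μ ∈ J • (⊤ : Submodule R (J →ₗ[R] N)) ∧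
        ∀ s : J, a • μ s = (b * (s : R)) • n := by
      intro b hb
      refine Submodule.mul_induction_on hb (fun r hr r' hr' => ?_) (fun x y hx hy => ?_)
      · obtain ⟨δ, hδ⟩ := exists_divMap ha hJJ' hr'
        refine ⟨r • δ.smulRight n, Submodule.smul_mem_smul hr trivial, fun s => ?_⟩
        rw [LinearMap.smul_apply, LinearMap.smulRight_apply, smul_smul, smul_smul]
        have h1 : a * r * δ s = r * r' * (s : R) := by
          rw [mul_comm a r, mul_assoc, hδ]
          ring
        rw [h1]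
      · obtain ⟨μ₁, hμ₁, h₁⟩ := hx
        obtain ⟨μ₂, hμ₂, h₂⟩ := hy
        exact ⟨μ₁ + μ₂, add_mem hμ₁ hμ₂, fun s => by
          rw [LinearMap.add_apply, smul_add, h₁, h₂, add_mul, add_smul]⟩
    obtain ⟨μ, hμ, h⟩ := key a haJJ'
    have : smulHom J N n = μ := by
      ext s
      apply smul_right_injective N ha
      show a • smulHom J N n s = a • μ s
      rw [h, smulHom_apply, smul_smul]
    rw [this]
    exact hμ
  · rw [Submodule.smul_le]
    intro r hr μ _
    rw [smul_eq_smulHom μ hr]
    exact LinearMap.mem_range_self _ _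

end SmulHom

theorem nontrivial_of_invertible (R : Type*) [CommRing R] [Nontrivial R] (N : Type*)
    [AddCommGroup N] [Module R N] [Module.Invertible R N] : Nontrivial N := by
  by_contra h
  rw [not_nontrivial_iff_subsingleton] at h
  have h2 : ∀ n : N, (1 : R) • n = (0 : R) • n := fun n => Subsingleton.elim _ _
  exact one_ne_zero (FaithfulSMul.eq_of_smul_eq_smul (M := R) (α := N) h2)

section Invertible

variable {R : Type u} [CommRing R] [IsDedekindDomain R]
variable {N : Type u} [AddCommGroup N] [Module R N] [Module.Invertible R N]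

/-- An invertible module over a Dedekind domain embeds into the ring, with nonzero image. -/
theorem exists_embedding :
    ∃ ψ : N →ₗ[R] R, Function.Injective ψ ∧ LinearMap.range ψ ≠ ⊥ := by
  obtain ⟨𝔞, ⟨φ⟩⟩ := Module.Invertible.exists_linearEquiv_ideal R N
  refine ⟨𝔞.subtype.comp φ.toLinearMap, ?_, ?_⟩
  · exact (Submodule.injective_subtype 𝔞).comp φ.injective
  · intro h
    haveI := nontrivial_of_invertible R N
    obtain ⟨n, hn⟩ := exists_ne (0 : N)
    have h1 : (𝔞.subtype.comp φ.toLinearMap) n ∈ (⊥ : Submodule R R) := by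
      rw [← h]; exact LinearMap.mem_range_self _ _
    rw [Submodule.mem_bot] at h1
    have h2 : (𝔞.subtype.comp φ.toLinearMap) n = (𝔞.subtype.comp φ.toLinearMap) 0 := by
      rw [h1, map_zero]
    exact hn (((Submodule.injective_subtype 𝔞).comp φ.injective) h2)

/-- Every submodule of an invertible module over a Dedekind domain is of the form `J • ⊤`. -/
theorem exists_ideal_smul_top_eq (S : Submodule R N) :
    ∃ J : Ideal R, J • (⊤ : Submodule R N) = S := by
  obtain ⟨ψ, hψ, -⟩ := exists_embedding (R := R) (N := N)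
  have hle : S.map ψ ≤ LinearMap.range ψ := by
    rw [← Submodule.map_top]; exact Submodule.map_mono le_top
  obtain ⟨J, hJ⟩ := Ideal.dvd_iff_le.mpr (show (S.map ψ : Ideal R) ≤ (LinearMap.range ψ : Ideal R)
    from hle)
  refine ⟨J, ?_⟩
  apply Submodule.map_injective_of_injective hψ
  rw [Submodule.map_smul'', Submodule.map_top]
  show J • (LinearMap.range ψ : Ideal R) = S.map ψ
  rw [Ideal.smul_eq_mul, mul_comm]
  exact hJ.symm

/-- `J • ⊤ = J' • ⊤` in an invertible module over a Dedekind domain forces `J = J'`. -/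
theorem ideal_eq_of_smul_top_eq {J J' : Ideal R}
    (h : J • (⊤ : Submodule R N) = J' • (⊤ : Submodule R N)) : J = J' := by
  obtain ⟨ψ, hψ, h0⟩ := exists_embedding (R := R) (N := N)
  have h1 := congrArg (Submodule.map ψ) h
  rw [Submodule.map_smul'', Submodule.map_smul'', Submodule.map_top] at h1
  have h2 : J * (LinearMap.range ψ : Ideal R) = J' * (LinearMap.range ψ : Ideal R) := h1
  exact mul_right_cancel₀ (show (LinearMap.range ψ : Ideal R) ≠ 0 from h0) h2

theorem smul_top_ne_bot {J : Ideal R} (hJ : J ≠ ⊥) : J • (⊤ : Submodule R N) ≠ ⊥ := by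
  intro h
  apply hJ
  apply ideal_eq_of_smul_top_eq (N := N)
  rw [h, Submodule.bot_smul]

end Invertible

section Finrank

variable (K : Type u) [Field K] {R : Type u} [CommRing R] [Algebra K R]
variable {N : Type u} [AddCommGroup N] [Module R N] [Module K N] [IsScalarTower K R N]

theorem finrank_quot_congr {S T : Submodule R N} (h : S = T) :
    finrank K (N ⧸ S) = finrank K (N ⧸ T) := by
  subst h; rfl

theorem finite_quot_congr {S T : Submodule R N} (h : S = T) (hS : Module.Finite K (N ⧸ S)) :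
    Module.Finite K (N ⧸ T) := by
  subst h; exact hS

variable [Module.Invertible R N]

/-- For an invertible module `N` and an ideal `J` with `R / J` finite-dimensional over `K`,
`N / J N ≅ R / J` (the Picard group of the artinian ring `R / J` is trivial). -/
theorem nonempty_quotient_smul_top_equiv (J : Ideal R) [Module.Finite K (R ⧸ J)] :
    Nonempty ((N ⧸ J • (⊤ : Submodule R N)) ≃ₗ[K] (R ⧸ J)) := by
  haveI : IsArtinianRing (R ⧸ J) := IsArtinianRing.of_finite K (R ⧸ J)
  haveI : Module.Free (R ⧸ J) (TensorProduct R (R ⧸ J) N) := inferInstance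
  obtain ⟨e⟩ := Module.Invertible.free_iff_linearEquiv.mp this
  let e' : (N ⧸ J • (⊤ : Submodule R N)) ≃ₗ[R] (R ⧸ J) :=
    (TensorProduct.quotTensorEquivQuotSMul N J).symm ≪≫ₗ (e.restrictScalars R)
  exact ⟨e'.restrictScalars K⟩

theorem finrank_quotient_smul_top (J : Ideal R) [Module.Finite K (R ⧸ J)] :
    finrank K (N ⧸ J • (⊤ : Submodule R N)) = finrank K (R ⧸ J) := by
  obtain ⟨e⟩ := nonempty_quotient_smul_top_equiv K (N := N) J
  exact e.finrank_eq

theorem finite_quotient_smul_top (J : Ideal R) [Module.Finite K (R ⧸ J)] :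
    Module.Finite K (N ⧸ J • (⊤ : Submodule R N)) := by
  obtain ⟨e⟩ := nonempty_quotient_smul_top_equiv K (N := N) J
  exact Module.Finite.equiv e.symm

end Finrank

end Fermat.Agent.S25.H807.AA6
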