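/-
S25 / AB-ALG leaf AA6 (helper807), part 3: the isomorphism `G ≅ ℋom(O(-D), E)` defined by an
injective morphism `t : E → G` of gluing data whose images are `I_a • G.N_a` for a Cartier
triple `(I₀, I₁, I₀₁)`.
-/
import Fermat.Agent.S25.H807.AA6.Dedekind
import Fermat.Agent.S25.H10.DegreeDefs
import Fermat.Agent.S25.H747.GDHom
import Fermat.Agent.S25.H130.GDC

set_option autoImplicit false
set_option maxHeartbeats 400000
set_option linter.style.haveILetI false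
set_option linter.unusedSectionVars false

universe u

namespace Fermat.Agent.S25.H807.AA6

open Fermat.Agent.S25 Fermat.Agent.S25.H10 Fermat.Agent.S25.H747

noncomputable section

section OneRing

variable {R : Type*} [CommRing R] [IsDedekindDomain R]
variable {E N : Type*} [AddCommGroup E] [Module R E] [AddCommGroup N] [Module R N]
  [Module.IsTorsionFree R N]

/-- Given an injective `t : E → N` with image `I • N` (`I ≠ 0`), the map
`n ↦ (r ↦ t⁻¹ (r • n))`, `N → Hom(I, E)`, is a surjective linear map. -/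
theorem exists_hom_lift (t : E →ₗ[R] N) (ht : Function.Injective t) {I : Ideal R}
    (hI : I ≠ ⊥) (h : LinearMap.range t = I • (⊤ : Submodule R N)) :
    ∃ Φ : N →ₗ[R] (I →ₗ[R] E), Function.Surjective Φ ∧
      ∀ (n : N) (r : I), t (Φ n r) = (r : R) • n := by
  classical
  have hinj : Function.Injective (LinearMap.compRight R t (M := I)) := by
    intro μ μ' hμ
    ext r
    apply ht
    exact congrArg (fun ν : I →ₗ[R] N => ν r) hμ
  have hmem : ∀ n : N, smulHom I N n ∈ LinearMap.range (LinearMap.compRight R t (M := I)) := by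
    intro n
    have h1 : ∀ r : I, smulHom I N n r ∈ LinearMap.range t := by
      intro r
      rw [h, smulHom_apply]
      exact Submodule.smul_mem_smul r.2 trivial
    refine ⟨((LinearEquiv.ofInjective t ht).symm.toLinearMap).comp
      ((smulHom I N n).codRestrict (LinearMap.range t) h1), ?_⟩
    ext r
    simp only [LinearMap.compRight_apply, LinearMap.comp_apply, LinearEquiv.coe_coe]
    rw [LinearEquiv.ofInjective_symm_apply]
    rfl
  let Φ : N →ₗ[R] (I →ₗ[R] E) :=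
    ((LinearEquiv.ofInjective (LinearMap.compRight R t (M := I)) hinj).symm.toLinearMap).comp
      ((smulHom I N).codRestrict _ hmem)
  have hΦ : ∀ n : N, LinearMap.compRight R t (M := I) (Φ n) = smulHom I N n := by
    intro n
    show LinearMap.compRight R t (M := I)
      ((LinearEquiv.ofInjective (LinearMap.compRight R t (M := I)) hinj).symm
        ((smulHom I N).codRestrict _ hmem n)) = _
    rw [LinearEquiv.ofInjective_symm_apply]
    rfl
  have hΦ' : ∀ (n : N) (r : I), t (Φ n r) = (r : R) • n := by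
    intro n r
    have := congrArg (fun ν : I →ₗ[R] N => ν r) (hΦ n)
    simpa using this
  refine ⟨Φ, ?_, hΦ'⟩
  intro μ
  obtain ⟨I', a, ha, -, hII'⟩ := exists_mul_eq_span hI
  have h2 : ∀ r : I, (t.comp μ) r ∈ I • (⊤ : Submodule R N) := by
    intro r
    rw [← h]
    exact LinearMap.mem_range_self _ _
  obtain ⟨n, hn⟩ := exists_smul_eq_of_range_le ha hII' (t.comp μ) h2
  refine ⟨n, ?_⟩
  ext r
  apply ht
  rw [hΦ', ← hn]
  rfl

end OneRing

section Glue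

variable {A R₀ R₁ R₀₁ : Type u} [CommRing A] [CommRing R₀] [CommRing R₁]
    [CommRing R₀₁] [Algebra A R₀] [Algebra A R₁] [Algebra A R₀₁] [Algebra R₀ R₀₁]
    [Algebra R₁ R₀₁] [IsScalarTower A R₀ R₀₁] [IsScalarTower A R₁ R₀₁]

/-- **The isomorphism lemma.**  Let `t : E → G` be a morphism of gluing data over a cospan of
Dedekind domains, injective on the charts and on the intersection, with images `I₀ • G.N₀`,
`I₁ • G.N₁` for a Cartier triple `(I₀, I₁, I₀₁)` of nonzero ideals.  Then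
`G ≅ ℋom(O(-D), E)`, `O(-D) = ofIdeals (I₀, I₁, I₀₁)`. -/
theorem isIso_homDatum_of_range_eq [IsDedekindDomain R₀] [IsDedekindDomain R₁]
    {E G : GlueDatum A R₀ R₁ R₀₁} (t : GDHom E G)
    (ht₀ : Function.Injective t.f₀) (ht₁ : Function.Injective t.f₁)
    (ht₀₁ : Function.Injective t.f₀₁)
    {I₀ : Ideal R₀} {I₁ : Ideal R₁} {I₀₁ : Ideal R₀₁} (hI : IsCartierTriple I₀ I₁ I₀₁)
    (hI₀ : I₀ ≠ ⊥) (hI₁ : I₁ ≠ ⊥)
    (h₀ : LinearMap.range t.f₀ = I₀ • (⊤ : Submodule R₀ G.N₀))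
    (h₁ : LinearMap.range t.f₁ = I₁ • (⊤ : Submodule R₁ G.N₁)) :
    G.IsIso (homDatum (ofIdeals A hI) E) := by
  classical
  haveI := G.invertible₀
  haveI := G.invertible₁
  haveI := E.invertible₀
  haveI := E.invertible₁
  haveI := hI.inv₀
  haveI := hI.inv₁
  obtain ⟨Φ₀, hΦ₀s, hΦ₀⟩ := exists_hom_lift t.f₀ ht₀ hI₀ h₀
  obtain ⟨Φ₁, hΦ₁s, hΦ₁⟩ := exists_hom_lift t.f₁ ht₁ hI₁ h₁
  set M : GlueDatum A R₀ R₁ R₀₁ := homDatum (ofIdeals A hI) E with hM
  let F₀ : G.N₀ →ₗ[R₀] M.N₀ := Φ₀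
  let F₁ : G.N₁ →ₗ[R₁] M.N₁ := Φ₁
  let F₀₁ : G.N₀₁ →ₗ[R₀₁] M.N₀₁ := G.isBaseChange₀.lift (M.r₀.comp F₀)
  have hF₀₁ : ∀ n : G.N₀, F₀₁ (G.r₀ n) = M.r₀ (F₀ n) := fun n =>
    G.isBaseChange₀.lift_eq _ n
  -- evaluation of `M.r₀`, `M.r₁` on restricted elements
  have hr₀ : ∀ (μ : I₀ →ₗ[R₀] E.N₀) (j : I₀),
      (show I₀₁ →ₗ[R₀₁] E.N₀₁ from M.r₀ μ) (idealRes I₀ I₀₁ hI.map₀.le j) = E.r₀ (μ j) :=
    fun μ j => IsBaseChange.linearMapLeftRightHom_comp_apply hI.bc₀ E.r₀ μ j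
  have hr₁ : ∀ (μ : I₁ →ₗ[R₁] E.N₁) (j : I₁),
      (show I₀₁ →ₗ[R₀₁] E.N₀₁ from M.r₁ μ) (idealRes I₁ I₀₁ hI.map₁.le j) = E.r₁ (μ j) :=
    fun μ j => IsBaseChange.linearMapLeftRightHom_comp_apply hI.bc₁ E.r₁ μ j
  have star : ∀ (m : G.N₀₁) (c : I₀₁),
      t.f₀₁ ((show I₀₁ →ₗ[R₀₁] E.N₀₁ from F₀₁ m) c) = (c : R₀₁) • m := by
    intro m
    refine G.isBaseChange₀.inductionOn m
      (fun m => ∀ c : I₀₁, t.f₀₁ ((show I₀₁ →ₗ[R₀₁] E.N₀₁ from F₀₁ m) c) = (c : R₀₁) • m)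
      ?_ ?_ ?_ ?_
    · intro c
      rw [map_zero, smul_zero]
      exact map_zero t.f₀₁
    · intro n c
      rw [hF₀₁]
      refine hI.bc₀.inductionOn c
        (fun c => t.f₀₁ ((show I₀₁ →ₗ[R₀₁] E.N₀₁ from M.r₀ (F₀ n)) c) = (c : R₀₁) • G.r₀ n)
        ?_ ?_ ?_ ?_
      · rw [map_zero, map_zero]
        exact (zero_smul R₀₁ (G.r₀ n)).symm
      · intro j
        rw [hr₀, t.comm₀]
        refine (congrArg G.r₀ (hΦ₀ n j)).trans ?_
        rw [map_smul, idealRes_coe, algebraMap_smul]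
      · intro s c hc
        rw [map_smul, map_smul, hc]
        show s • ((c : R₀₁) • G.r₀ n) = (s * (c : R₀₁)) • G.r₀ n
        rw [mul_smul]
      · intro c₁ c₂ hc₁ hc₂
        rw [map_add, map_add, hc₁, hc₂]
        show _ = ((c₁ : R₀₁) + (c₂ : R₀₁)) • G.r₀ n
        rw [add_smul]
    · intro s m hm c
      have h1 : (show I₀₁ →ₗ[R₀₁] E.N₀₁ from F₀₁ (s • m)) c
          = s • (show I₀₁ →ₗ[R₀₁] E.N₀₁ from F₀₁ m) c := by
        rw [map_smul]; rfl
      rw [h1, map_smul, hm, smul_comm]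
    · intro m₁ m₂ hm₁ hm₂ c
      have h1 : (show I₀₁ →ₗ[R₀₁] E.N₀₁ from F₀₁ (m₁ + m₂)) c
          = (show I₀₁ →ₗ[R₀₁] E.N₀₁ from F₀₁ m₁) c
            + (show I₀₁ →ₗ[R₀₁] E.N₀₁ from F₀₁ m₂) c := by
        rw [map_add]; rfl
      rw [h1, map_add, hm₁, hm₂, smul_add]
  have star' : ∀ (n : G.N₁) (c : I₀₁),
      t.f₀₁ ((show I₀₁ →ₗ[R₀₁] E.N₀₁ from M.r₁ (F₁ n)) c) = (c : R₀₁) • G.r₁ n := by
    intro n c
    refine hI.bc₁.inductionOn c
      (fun c => t.f₀₁ ((show I₀₁ →ₗ[R₀₁] E.N₀₁ from M.r₁ (F₁ n)) c) = (c : R₀₁) • G.r₁ n)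
      ?_ ?_ ?_ ?_
    · rw [map_zero, map_zero]
      exact (zero_smul R₀₁ (G.r₁ n)).symm
    · intro j
      rw [hr₁, t.comm₁]
      refine (congrArg G.r₁ (hΦ₁ n j)).trans ?_
      rw [map_smul, idealRes_coe, algebraMap_smul]
    · intro s c hc
      rw [map_smul, map_smul, hc]
      show s • ((c : R₀₁) • G.r₁ n) = (s * (c : R₀₁)) • G.r₁ n
      rw [mul_smul]
    · intro c₁ c₂ hc₁ hc₂
      rw [map_add, map_add, hc₁, hc₂]
      show _ = ((c₁ : R₀₁) + (c₂ : R₀₁)) • G.r₁ n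
      rw [add_smul]
  let F : GDHom G M :=
    { f₀ := F₀
      f₁ := F₁
      f₀₁ := F₀₁
      comm₀ := hF₀₁
      comm₁ := fun n => by
        apply LinearMap.ext (f := (show I₀₁ →ₗ[R₀₁] E.N₀₁ from F₀₁ (G.r₁ n)))
          (g := (show I₀₁ →ₗ[R₀₁] E.N₀₁ from M.r₁ (F₁ n)))
        intro c
        apply ht₀₁
        rw [star, star'] }
  haveI : Module.Invertible R₀ M.N₀ := M.invertible₀
  haveI : Module.Invertible R₁ M.N₁ := M.invertible₁
  have hb₀ : Function.Bijective F.f₀ := Module.Invertible.bijective_of_surjective hΦ₀s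
  have hb₁ : Function.Bijective F.f₁ := Module.Invertible.bijective_of_surjective hΦ₁s
  exact H130.isIso_of_bijective F (H130.bijective_of_charts F hb₀ hb₁)

end Glue

end

end Fermat.Agent.S25.H807.AA6
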