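/-
S25 / AB-ALG leaf AA6 (helper807), part 2: images under base change.  Mathlib only.

For a base change `R → R'`, modules `E, N` with base changes `E', N'` and compatible maps
`t : E → N`, `t' : E' → N'`:
* `range_eq_smul_top_of_isBaseChange` : `range t = J • ⊤ → range t' = (J R') • ⊤`;
* `injective_of_isLocalization`       : `t` injective and `R'` a localization ⇒ `t'` injective.
-/
import Mathlib

set_option autoImplicit false
set_option maxHeartbeats 400000
set_option linter.style.haveILetI false

namespace Fermat.Agent.S25.H807.AA6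

section BaseChange

variable {R R' : Type*} [CommRing R] [CommRing R'] [Algebra R R']
variable {E N E' N' : Type*} [AddCommGroup E] [Module R E] [AddCommGroup N] [Module R N]
  [AddCommGroup E'] [Module R E'] [Module R' E'] [IsScalarTower R R' E']
  [AddCommGroup N'] [Module R N'] [Module R' N'] [IsScalarTower R R' N']
  {rE : E →ₗ[R] E'} {rN : N →ₗ[R] N'}

/-- The image of `J • ⊤` under a base change map lies in `(J R') • ⊤`. -/
theorem map_mem_smul_top (J : Ideal R) {m : N} (hm : m ∈ J • (⊤ : Submodule R N)) :
    rN m ∈ (J.map (algebraMap R R')) • (⊤ : Submodule R' N') := by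
  refine Submodule.smul_induction_on hm (fun j hj n _ => ?_) (fun x y hx hy => ?_)
  · rw [map_smul, ← algebraMap_smul R' j (rN n)]
    exact Submodule.smul_mem_smul (Ideal.mem_map_of_mem _ hj) trivial
  · rw [map_add]
    exact add_mem hx hy

/-- If an `R'`-submodule `T` of `N'` contains the image of `J • ⊤`, it contains `(J R') • ⊤`. -/
theorem smul_top_le_of_map_mem (hN : IsBaseChange R' rN) (J : Ideal R) (T : Submodule R' N')
    (hT : ∀ j ∈ J, ∀ n : N, rN (j • n) ∈ T) :
    (J.map (algebraMap R R')) • (⊤ : Submodule R' N') ≤ T := by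
  rw [Submodule.smul_le]
  intro c hc n' _
  suffices h : ∀ n' : N', c • n' ∈ T from h n'
  refine Submodule.span_induction (p := fun c _ => ∀ n' : N', c • n' ∈ T) ?_ ?_ ?_ ?_ hc
  · rintro _ ⟨j, hj, rfl⟩ n'
    refine hN.inductionOn n' (fun n' => algebraMap R R' j • n' ∈ T) ?_ ?_ ?_ ?_
    · rw [smul_zero]; exact zero_mem _
    · intro n
      rw [algebraMap_smul, ← map_smul]
      exact hT j hj n
    · intro s n' h
      rw [smul_comm]
      exact T.smul_mem s h
    · intro n₁ n₂ h₁ h₂
      rw [smul_add]
      exact add_mem h₁ h₂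
  · intro n'
    rw [zero_smul]; exact zero_mem _
  · intro c₁ c₂ _ _ h₁ h₂ n'
    rw [add_smul]
    exact add_mem (h₁ n') (h₂ n')
  · intro s c _ h n'
    rw [smul_eq_mul, mul_smul]
    exact T.smul_mem s (h n')

/-- Images commute with base change: if `range t = J • ⊤` then `range t' = (J R') • ⊤`. -/
theorem range_eq_smul_top_of_isBaseChange (hE : IsBaseChange R' rE) (hN : IsBaseChange R' rN)
    (t : E →ₗ[R] N) (t' : E' →ₗ[R'] N') (hcomm : ∀ e, t' (rE e) = rN (t e)) (J : Ideal R)
    (h : LinearMap.range t = J • (⊤ : Submodule R N)) :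
    LinearMap.range t' = (J.map (algebraMap R R')) • (⊤ : Submodule R' N') := by
  apply le_antisymm
  · rintro _ ⟨e', rfl⟩
    refine hE.inductionOn e'
      (fun e' => t' e' ∈ (J.map (algebraMap R R')) • (⊤ : Submodule R' N')) ?_ ?_ ?_ ?_
    · rw [map_zero]; exact zero_mem _
    · intro e
      rw [hcomm]
      apply map_mem_smul_top
      rw [← h]
      exact LinearMap.mem_range_self _ _
    · intro s e' he'
      rw [map_smul]
      exact Submodule.smul_mem _ s he'
    · intro e₁ e₂ h₁ h₂
      rw [map_add]
      exact add_mem h₁ h₂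
  · apply smul_top_le_of_map_mem hN
    intro j hj n
    have h1 : j • n ∈ LinearMap.range t := by
      rw [h]; exact Submodule.smul_mem_smul hj trivial
    obtain ⟨e, he⟩ := h1
    rw [← he, ← hcomm]
    exact LinearMap.mem_range_self _ _

/-- Localization is exact: `t'` is injective if `t` is. -/
theorem injective_of_isLocalization (S : Submonoid R) [IsLocalization S R']
    (hE : IsBaseChange R' rE) (hN : IsBaseChange R' rN)
    (t : E →ₗ[R] N) (t' : E' →ₗ[R'] N') (hcomm : ∀ e, t' (rE e) = rN (t e))
    (ht : Function.Injective t) : Function.Injective t' := by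
  haveI : IsLocalizedModule S rE := (isLocalizedModule_iff_isBaseChange S R' rE).mpr hE
  haveI : IsLocalizedModule S rN := (isLocalizedModule_iff_isBaseChange S R' rN).mpr hN
  rw [injective_iff_map_eq_zero]
  intro e' he'
  obtain ⟨⟨e, s⟩, hs⟩ := IsLocalizedModule.surj S rE e'
  have hs' : (s : R) • e' = rE e := hs
  have h1 : rN (t e) = 0 := by
    rw [← hcomm, ← hs', LinearMap.map_smul_of_tower, he', smul_zero]
  obtain ⟨s', hs'0⟩ := (IsLocalizedModule.eq_zero_iff S rN).mp h1
  have h2 : t ((s' : R) • e) = 0 := by
    rw [map_smul]; exact hs'0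
  have h3 : (s' : R) • e = 0 := ht (by rw [h2, map_zero])
  have h4 : (s' * s) • e' = 0 := by
    show ((s' : R) * (s : R)) • e' = 0
    rw [mul_smul, hs', ← map_smul, h3, map_zero]
  exact IsLocalizedModule.smul_injective rE (s' * s) (by simpa using h4)

/-- A base change map of a torsion-free module along a localization of a domain is
injective. -/
theorem isBaseChange_injective_of_isLocalization [IsDomain R] [Module.IsTorsionFree R N]
    (S : Submonoid R) (hS : (0 : R) ∉ S) [IsLocalization S R'] (hN : IsBaseChange R' rN) :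
    Function.Injective rN := by
  haveI : IsLocalizedModule S rN := (isLocalizedModule_iff_isBaseChange S R' rN).mpr hN
  rw [injective_iff_map_eq_zero]
  intro n hn
  obtain ⟨s, hs⟩ := (IsLocalizedModule.eq_zero_iff S rN).mp hn
  have hs0 : (s : R) ≠ 0 := fun h => hS (h ▸ s.2)
  exact (smul_eq_zero_iff_right hs0).mp hs

end BaseChange

end Fermat.Agent.S25.H807.AA6
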