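/-
S25 / AB-ALG leaf AA6 (helper807): `abelDatum_surj` in its EXACT skeleton form, and
`stmtAA6 : H747.StmtAA6 k B₀ B₁ B₀₁`.

Chart wiring of the abstract theorem `exists_points_isIso_homDatum` of helper627 (vendored in `V627/`): the rings
`K ⊗ Bᵢ` are Dedekind of finite type (H207), `K ⊗ B₀₁` is their common localization (H747 C1),
the modification formula is DEGREE D3-a (H565), `χ(O) = 1 - g` is DEGREE D6 (H910), the divisor
`g·ε` has degree `g`, `K`-points of `K ⊗ Bᵢ` are `K`-valued points of `Bᵢ`, and AA1 (H747).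
-/
import Fermat.Agent.S25.H807.AA6.V627.AbelSurj
import Fermat.Agent.S25.H747.AbCartier
import Fermat.Agent.S25.H747.AlgAbelTop
import Fermat.Agent.S25.H207.ChartCor
import Fermat.Agent.S25.H565.DegreeD3
import Fermat.Agent.S25.H910.UnitDegree
import Fermat.Agent.S25.H430.GDC

set_option autoImplicit false
set_option maxHeartbeats 400000
set_option linter.style.haveILetI false
set_option linter.unusedSectionVars false

universe u

open scoped TensorProduct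

namespace Fermat.Agent.S25.H807.AA6

open Fermat.Agent.S25 Fermat.Agent.S25.H747 Module

noncomputable section

/-! ## `K`-points of `K ⊗ B` -/

section Points

variable {k : Type u} [Field k] {K : Type u} [Field K] [Algebra k K]
  {B : Type u} [CommRing B] [Algebra k B]

/-- A `K`-point of `K ⊗[k] B` as a `K`-valued point of `B`. -/
def ptOfAlgHom (φ : K ⊗[k] B →ₐ[K] K) : B →ₐ[k] K :=
  (φ.restrictScalars k).comp Algebra.TensorProduct.includeRight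

@[simp] theorem ptOfAlgHom_apply (φ : K ⊗[k] B →ₐ[K] K) (b : B) :
    ptOfAlgHom φ b = φ ((1 : K) ⊗ₜ[k] b) := rfl

theorem evalHom_ptOfAlgHom (φ : K ⊗[k] B →ₐ[K] K) : evalHom (ptOfAlgHom φ) = φ := by
  apply AlgHom.ext
  intro z
  induction z using TensorProduct.induction_on with
  | zero => simp
  | add a b ha hb => simp only [map_add, ha, hb]
  | tmul a b =>
    rw [evalHom_tmul, ptOfAlgHom_apply]
    have h : a ⊗ₜ[k] b = a • ((1 : K) ⊗ₜ[k] b) := by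
      rw [TensorProduct.smul_tmul', smul_eq_mul, mul_one]
    rw [h, map_smul, smul_eq_mul]

theorem graphIdeal_ptOfAlgHom (φ : K ⊗[k] B →ₐ[K] K) :
    graphIdeal (ptOfAlgHom φ) = RingHom.ker φ := by
  unfold graphIdeal
  rw [evalHom_ptOfAlgHom]

end Points

/-! ## The chart -/

section Chart

variable {k : Type u} [Field k] [IsAlgClosed k]
  {B₀ B₁ B₀₁ : Type u} [CommRing B₀] [CommRing B₁] [CommRing B₀₁]
  [Algebra k B₀] [Algebra k B₁] [Algebra k B₀₁] [Algebra B₀ B₀₁] [Algebra B₁ B₀₁]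
  [IsScalarTower k B₀ B₀₁] [IsScalarTower k B₁ B₀₁]
  {x : B₀} {y : B₁} {e : B₁ →ₐ[k] k}
  {K : Type u} [Field K] [Algebra k K]

/-- Chart points of the cospan `K ⊗ B₀ → K ⊗ B₀₁ ← K ⊗ B₁` as chart points of the curve. -/
def chartPtOf (Q : ((K ⊗[k] B₀) →ₐ[K] K) ⊕ ((K ⊗[k] B₁) →ₐ[K] K)) : H746.ChartPt k B₀ B₁ K :=
  Sum.map ptOfAlgHom ptOfAlgHom Q

theorem ptI₀_chartPtOf (Q : ((K ⊗[k] B₀) →ₐ[K] K) ⊕ ((K ⊗[k] B₁) →ₐ[K] K)) :
    ptI₀ B₀₁ (chartPtOf Q) = V627.ptIdeal₀ (K ⊗[k] B₀₁) Q := by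
  rcases Q with φ | φ
  · show graphIdeal (ptOfAlgHom φ) = RingHom.ker φ
    exact graphIdeal_ptOfAlgHom φ
  · show ((graphIdeal (ptOfAlgHom φ)).map _).comap _ = ((RingHom.ker φ).map _).comap _
    rw [graphIdeal_ptOfAlgHom]

theorem ptI₁_chartPtOf (Q : ((K ⊗[k] B₀) →ₐ[K] K) ⊕ ((K ⊗[k] B₁) →ₐ[K] K)) :
    ptI₁ B₀₁ (chartPtOf Q) = V627.ptIdeal₁ (K ⊗[k] B₀₁) Q := by
  rcases Q with φ | φ
  · show ((graphIdeal (ptOfAlgHom φ)).map _).comap _ = ((RingHom.ker φ).map _).comap _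
    rw [graphIdeal_ptOfAlgHom]
  · show graphIdeal (ptOfAlgHom φ) = RingHom.ker φ
    exact graphIdeal_ptOfAlgHom φ

/-! ### The divisor `g·ε` -/

theorem one_tmul_y_mem (hC : IsCurveChart k B₀ B₁ B₀₁ x y e) :
    (1 : K) ⊗ₜ[k] y ∈ graphIdeal ((Algebra.ofId k K).comp e) := by
  show evalHom ((Algebra.ofId k K).comp e) ((1 : K) ⊗ₜ[k] y) = 0
  rw [evalHom_tmul, AlgHom.comp_apply, hC.e_y, map_zero, mul_zero]

theorem map_graphIdeal_eps (hC : IsCurveChart k B₀ B₁ B₀₁ x y e) :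
    (graphIdeal ((Algebra.ofId k K).comp e)).map
      (algebraMap (K ⊗[k] B₁) (K ⊗[k] B₀₁)) = ⊤ :=
  Ideal.eq_top_of_isUnit_mem _ (Ideal.mem_map_of_mem _ (one_tmul_y_mem hC))
    (IsUnit.of_mul_eq_one _ (chart_mul_eq_one' hC K))

theorem ptI₀_eps (hC : IsCurveChart k B₀ B₁ B₀₁ x y e) :
    ptI₀ B₀₁ (epsPt B₀ e K) = ⊤ := by
  show Ideal.comap _ (Ideal.map _ (graphIdeal ((Algebra.ofId k K).comp e))) = ⊤
  rw [map_graphIdeal_eps hC, Ideal.comap_top]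

theorem ptI₀₁_eps (hC : IsCurveChart k B₀ B₁ B₀₁ x y e) :
    ptI₀₁ B₀₁ (epsPt B₀ e K) = ⊤ :=
  map_graphIdeal_eps hC

theorem tupI₀_eps (hC : IsCurveChart k B₀ B₁ B₀₁ x y e) (g : ℕ) :
    tupI₀ B₀₁ (fun _ : Fin g => epsPt B₀ e K) = ⊤ := by
  unfold tupI₀
  rw [Finset.prod_const, ptI₀_eps hC, Ideal.top_pow]

theorem tupI₀₁_eps (hC : IsCurveChart k B₀ B₁ B₀₁ x y e) (g : ℕ) :
    tupI₀₁ B₀₁ (fun _ : Fin g => epsPt B₀ e K) = ⊤ := by
  unfold tupI₀₁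
  rw [Finset.prod_const, ptI₀₁_eps hC, Ideal.top_pow]

theorem tupI₁_eps (g : ℕ) :
    tupI₁ B₀₁ (fun _ : Fin g => epsPt B₀ e K) =
      (graphIdeal ((Algebra.ofId k K).comp e) : Ideal (K ⊗[k] B₁)) ^ g := by
  unfold tupI₁
  rw [Finset.prod_const, Finset.card_univ, Fintype.card_fin]
  rfl

theorem one_tmul_ne_zero {B : Type u} [CommRing B] [Algebra k B] {b : B} (hb : b ≠ 0) :
    (1 : K) ⊗ₜ[k] b ≠ (0 : K ⊗[k] B) := by
  intro h
  apply hb
  have hinj : Function.Injective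
      (Algebra.TensorProduct.includeRight : B →ₐ[k] K ⊗[k] B) :=
    Algebra.TensorProduct.includeRight_injective (algebraMap k K).injective
  exact hinj (by rw [map_zero]; exact h)

/-- **AA6 `abelDatum_surj`**, exact skeleton statement. -/
theorem abelDatum_surj (hC : IsCurveChart k B₀ B₁ B₀₁ x y e)
    (K : Type u) [Field K] [IsAlgClosed K] [Algebra k K] (G : CurveGD k B₀ B₁ B₀₁ K)
    (hG : G.Deg0) :
    ∃ P : Fin (genus k B₀ B₁ B₀₁) → H746.ChartPt k B₀ B₁ K,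
      G.IsIso (abelDatum (B₀₁ := B₀₁) e (genus k B₀ B₁ B₀₁) K P) := by
  classical
  -- the rings
  haveI := hC.away₀
  haveI := hC.away₁
  haveI : IsDedekindDomain (K ⊗[k] B₀) := H207.isDedekindDomain_tensor_chart₀ hC K
  haveI : IsDedekindDomain (K ⊗[k] B₁) := H207.isDedekindDomain_tensor_chart₁ hC K
  haveI : Algebra.FiniteType k B₀ := H207.finiteType_chart₀ hC
  haveI : Algebra.FiniteType k B₁ := H207.finiteType_chart₁ hC
  haveI : Algebra.FiniteType K (K ⊗[k] B₀) := inferInstance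
  haveI : Algebra.FiniteType K (K ⊗[k] B₁) := inferInstance
  haveI l₀ : IsLocalization.Away ((1 : K) ⊗ₜ[k] x) (K ⊗[k] B₀₁) :=
    isLocalization_away_tensor (k := k) K B₀ B₀₁ x
  haveI l₁ : IsLocalization.Away ((1 : K) ⊗ₜ[k] y) (K ⊗[k] B₀₁) :=
    isLocalization_away_tensor (k := k) K B₁ B₀₁ y
  have hx : (1 : K) ⊗ₜ[k] x ≠ (0 : K ⊗[k] B₀) := one_tmul_ne_zero (chart_x_ne_zero hC)
  have hy : (1 : K) ⊗ₜ[k] y ≠ (0 : K ⊗[k] B₁) := one_tmul_ne_zero (chart_y_ne_zero hC)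
  -- DEGREE inputs
  have hEuler : V627.EulerModification K (K ⊗[k] B₀) (K ⊗[k] B₁) (K ⊗[k] B₀₁) :=
    fun f hf h₀ h₁ => H565.D.euler_eq_of_injective hC f hf h₀ h₁
  have hunit : (GlueDatum.unit K (K ⊗[k] B₀) (K ⊗[k] B₁) (K ⊗[k] B₀₁)).euler
      = 1 - ((genus k B₀ B₁ B₀₁ : ℕ) : ℤ) := by
    have h := H910.euler_eq_degree hC (GlueDatum.unit K (K ⊗[k] B₀) (K ⊗[k] B₁) (K ⊗[k] B₀₁))
    have hd : (GlueDatum.unit K (K ⊗[k] B₀) (K ⊗[k] B₁) (K ⊗[k] B₀₁)).degree = 0 := by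
      unfold GlueDatum.degree
      exact sub_self _
    rw [hd, zero_add] at h
    exact h
  have hGe : G.euler = (GlueDatum.unit K (K ⊗[k] B₀) (K ⊗[k] B₁) (K ⊗[k] B₀₁)).euler := by
    have h0 : G.degree = 0 := hG K (AlgHom.id k K) G (H430.bcId K G)
    unfold GlueDatum.degree at h0
    exact sub_eq_zero.mp h0
  -- the divisor `g·ε`
  set g := genus k B₀ B₁ B₀₁ with hg
  have hU : TupCartier (B₀₁ := B₀₁) (fun _ : Fin g => epsPt B₀ e K) := tupCartier hC K _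
  set 𝔪 : Ideal (K ⊗[k] B₁) := graphIdeal ((Algebra.ofId k K).comp e) with h𝔪
  haveI h𝔪max : 𝔪.IsMaximal :=
    RingHom.ker_isMaximal_of_surjective _ (evalHom_surjective ((Algebra.ofId k K).comp e))
  have h𝔪0 : 𝔪 ≠ ⊥ := by
    intro h
    have h1 : (1 : K) ⊗ₜ[k] y ∈ 𝔪 := one_tmul_y_mem hC
    rw [h, Ideal.mem_bot] at h1
    exact hy h1
  have hU₀ : tupI₀ B₀₁ (fun _ : Fin g => epsPt B₀ e K) ≠ ⊥ := by
    rw [tupI₀_eps hC]; exact top_ne_bot
  have hU₁ : tupI₁ B₀₁ (fun _ : Fin g => epsPt B₀ e K) ≠ ⊥ := by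
    rw [tupI₁_eps]; exact pow_ne_zero g (show 𝔪 ≠ 0 from h𝔪0)
  have hUg : (finrank K ((K ⊗[k] B₀) ⧸ tupI₀ B₀₁ (fun _ : Fin g => epsPt B₀ e K)) : ℤ)
      + finrank K ((K ⊗[k] B₁) ⧸ tupI₁ B₀₁ (fun _ : Fin g => epsPt B₀ e K))
      - finrank K ((K ⊗[k] B₀₁) ⧸ tupI₀₁ B₀₁ (fun _ : Fin g => epsPt B₀ e K)) = g := by
    rw [V627.finrank_quotient_congr (K := K) (tupI₀_eps hC g),
      V627.finrank_quotient_congr (K := K) (tupI₀₁_eps hC g),
      V627.finrank_quotient_congr (K := K) (tupI₁_eps (B₀₁ := B₀₁) (e := e) (K := K) g),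
      V627.finrank_quotient_top, V627.finrank_quotient_top,
      V627.finrank_quotient_pow 𝔪 h𝔪0 g]
    simp
  obtain ⟨Q, hQ⟩ := V627.exists_points_isIso_homDatum ((1 : K) ⊗ₜ[k] x) ((1 : K) ⊗ₜ[k] y)
    hx hy hEuler g hunit hU hU₀ hU₁ hUg G hGe
  refine ⟨fun i => chartPtOf (Q i), ?_⟩
  have hT : TupCartier (B₀₁ := B₀₁) (fun i => chartPtOf (Q i)) := tupCartier hC K _
  rw [abelDatum_eq e g K _ hT hU]
  refine hQ hT ?_ ?_
  · unfold tupI₀
    exact Finset.prod_congr rfl fun i _ => ptI₀_chartPtOf (Q i)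
  · unfold tupI₁
    exact Finset.prod_congr rfl fun i _ => ptI₁_chartPtOf (Q i)

/-- Leaf **AA6** in the form used by `H747.algAbel_of_leaves`. -/
theorem stmtAA6 : StmtAA6 k B₀ B₁ B₀₁ :=
  fun _ _ _ hC K _ _ _ G hG => abelDatum_surj hC K G hG

end Chart

end

end Fermat.Agent.S25.H807.AA6
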